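import Mathlib
import Fermat.Agent.MU.S48.W.Interfaces

section MergeWrap_S48_W_P_Defs -- from S48/W/P/Defs.lean

set_option autoImplicit false

noncomputable section

namespace Fermat.Agent.S48W

open CongruenceSubgroup
open scoped MatrixGroups ModularForm

/-- **(P1) Teichmüller character**: `ω : (ℤ/ℓ)ˣ → ℤ̄ˣ` with `φ (ω d) = d`. -/
def TeichStatement : Prop :=
  ∀ (ℓ : ℕ), ℓ.Prime → ∀ (k : Type) [Field k] [CharP k ℓ] (φ : integralClosure ℤ ℂ →+* k),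
    ∃ ω : (ZMod ℓ)ˣ →* (integralClosure ℤ ℂ)ˣ,
      ∀ d : (ZMod ℓ)ˣ, φ (ω d : integralClosure ℤ ℂ) = (((d : ZMod ℓ).val : ℕ) : k)

/-- **(P-SCALE)**: a nonzero family of algebraic integers in a number field can be scaled to a
family of algebraic integers which is nonzero modulo `ker φ`. -/
def ScaleStatement : Prop :=
  ∀ (c : ℕ → integralClosure ℤ ℂ), (∃ n, c n ≠ 0) →
    (∃ K : IntermediateField ℚ ℂ, FiniteDimensional ℚ K ∧ ∀ n, (c n : ℂ) ∈ K) →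
    ∀ (ℓ : ℕ), ℓ.Prime → ∀ (k : Type) [Field k] [CharP k ℓ] (φ : integralClosure ℤ ℂ →+* k),
      ∃ (α : ℂ) (c' : ℕ → integralClosure ℤ ℂ), α ≠ 0 ∧ (∀ n, (c' n : ℂ) = α * (c n : ℂ)) ∧
        ∃ n, φ (c' n) ≠ 0

/-- **(P2') the Eisenstein series modulo `φ`**: for a Teichmüller character `ω` (with respect to
`φ`, `ℓ` odd) there is a modular form `E` of weight one on `Γ₁(ℓ)` with nebentypus `ω⁻¹`,
integral `q`-coefficients, `E ≡ 1` modulo `ker φ`.  [`E = 2 ℓ E₁^{ω⁻¹}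
  = -∑_{a<ℓ} ω⁻¹(a) a + 2 ℓ ∑_n (∑_{d ∣ n} ω⁻¹(d)) q^n`.] -/
def EisModStatement : Prop :=
  ∀ (ℓ : ℕ), ℓ.Prime → ℓ ≠ 2 → ∀ (k : Type) [Field k] [CharP k ℓ]
    (φ : integralClosure ℤ ℂ →+* k) (ω : (ZMod ℓ)ˣ →* (integralClosure ℤ ℂ)ˣ),
    (∀ d : (ZMod ℓ)ˣ, φ (ω d : integralClosure ℤ ℂ) = (((d : ZMod ℓ).val : ℕ) : k)) →
    ∃ (E : ModularForm (Gamma1 ℓ) 1) (b : ℕ → integralClosure ℤ ℂ),
      (∀ n, (b n : ℂ) = ModularFormClass.qCoeff E n) ∧ φ (b 0) = 1 ∧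
      (∀ n, 0 < n → φ (b n) = 0) ∧
      ∀ γ : SL(2, ℤ), γ ∈ Gamma0 ℓ → ∀ d : (ZMod ℓ)ˣ,
        ((d : ZMod ℓ) = ((γ 1 1 : ℤ) : ZMod ℓ)) →
        ∀ z : UpperHalfPlane, ((E : UpperHalfPlane → ℂ) ∣[(1 : ℤ)] γ) z
          = ((((ω d)⁻¹ : (integralClosure ℤ ℂ)ˣ) : integralClosure ℤ ℂ) : ℂ) * E z

/-- **(P3') the product of a cusp form of weight one on `Γ₁(N)` and a modular form of weight one
on `Γ₁(ℓ)`** is a cusp form of weight two on `Γ₁(N ℓ)`; its `q`-expansion is the Cauchy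
product. -/
def ProductFormStatement : Prop :=
  ∀ (N ℓ : ℕ) [NeZero N] [NeZero ℓ] (f : CuspForm (Gamma1 N) 1) (E : ModularForm (Gamma1 ℓ) 1),
    ∃ g : CuspForm (Gamma1 (N * ℓ)) 2, (∀ z : UpperHalfPlane, g z = f z * E z) ∧
      ∀ n : ℕ, ModularFormClass.qCoeff g n =
        ∑ i ∈ Finset.range (n + 1),
          ModularFormClass.qCoeff f i * ModularFormClass.qCoeff E (n - i)

/-- **(P4') the product eigenvector**: under the hypotheses of `WallStatement` there is a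
`ModEigen (N ℓ) k φ` with `t p = φ (a p)` and `p · φ (χ p) = φ (ε p)` for the primes `p ∤ N ℓ`. -/
def ProductEigen : Prop :=
  ∀ (N : ℕ) [NeZero N] (ε : (ZMod N)ˣ →* (integralClosure ℤ ℂ)ˣ)
    (f : CuspForm (Gamma1 N) 1) (c a : ℕ → integralClosure ℤ ℂ),
    (∀ n, (c n : ℂ) = ModularFormClass.qCoeff f n) →
    (∃ n, c n ≠ 0) →
    (∃ K : IntermediateField ℚ ℂ, FiniteDimensional ℚ K ∧ ∀ n, (c n : ℂ) ∈ K) →
    (∀ γ : SL(2, ℤ), γ ∈ Gamma0 N → ∀ d : (ZMod N)ˣ, ((d : ZMod N) = ((γ 1 1 : ℤ) : ZMod N)) →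
      ∀ z : UpperHalfPlane, ((f : UpperHalfPlane → ℂ) ∣[(1 : ℤ)] γ) z
        = (((ε d : (integralClosure ℤ ℂ)ˣ) : integralClosure ℤ ℂ) : ℂ) * f z) →
    (∀ (p : ℕ) (_ : p.Prime) (hpN : Nat.Coprime p N) (n : ℕ),
      c (p * n) + (ε (ZMod.unitOfCoprime p hpN) : integralClosure ℤ ℂ) *
        (if p ∣ n then c (n / p) else 0) = a p * c n) →
    ∀ (ℓ : ℕ), ℓ.Prime → ¬ ℓ ∣ 2 * N →
      ∀ (k : Type) [Field k] [CharP k ℓ] (φ : integralClosure ℤ ℂ →+* k),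
        ∃ (_ : NeZero (N * ℓ)) (e : ModEigen (N * ℓ) k φ),
          (∀ p : Nat.Primes, Nat.Coprime (p : ℕ) (N * ℓ) → e.t p = φ (a p)) ∧
          ∀ (p : Nat.Primes) (hpM : Nat.Coprime (p : ℕ) (N * ℓ)) (hpN : Nat.Coprime (p : ℕ) N),
            (((p : ℕ) : k)) * φ (e.χ (ZMod.unitOfCoprime p hpM) : integralClosure ℤ ℂ)
              = φ (ε (ZMod.unitOfCoprime p hpN) : integralClosure ℤ ℂ)

end Fermat.Agent.S48W
end
end MergeWrap_S48_W_P_Defs
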