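import Mathlib
import Fermat.Agent.MU.S48.W.P.Defs

section MergeWrap_S48_W_P_Product -- from S48/W/P/Product.lean

set_option autoImplicit false

noncomputable section

namespace Fermat.Agent.S48W

open CongruenceSubgroup UpperHalfPlane Matrix.SpecialLinearGroup
open scoped MatrixGroups ModularForm

/-- `Γ₁(M) ≤ Γ₁(N)` for `N ∣ M`. -/
theorem p3_Gamma1_le_of_dvd {N M : ℕ} (h : N ∣ M) : Gamma1 M ≤ Gamma1 N := by
  intro A hA
  rw [Gamma1_mem] at hA ⊢
  have key : ∀ a b : ℤ, ((a : ℤ) : ZMod M) = ((b : ℤ) : ZMod M) →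
      ((a : ℤ) : ZMod N) = ((b : ℤ) : ZMod N) := by
    intro a b hab
    have h1 := congrArg (ZMod.castHom h (ZMod N)) hab
    simpa using h1
  refine ⟨?_, ?_, ?_⟩
  · have := key (A 0 0) 1 (by simpa using hA.1)
    simpa using this
  · have := key (A 1 1) 1 (by simpa using hA.2.1)
    simpa using this
  · have := key (A 1 0) 0 (by simpa using hA.2.2)
    simpa using this

/-- Restriction of a cusp form to a smaller group. -/
def p3_restrictCusp {Γ Γ' : Subgroup (GL (Fin 2) ℝ)} (h : Γ' ≤ Γ) {k : ℤ} (f : CuspForm Γ k) :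
    CuspForm Γ' k where
  toFun := f
  slash_action_eq' A hA := f.slash_action_eq' A (h hA)
  holo' := f.holo'
  zero_at_cusps' hc := f.zero_at_cusps' (hc.mono h)

/-- Restriction of a modular form to a smaller group. -/
def p3_restrictMod {Γ Γ' : Subgroup (GL (Fin 2) ℝ)} (h : Γ' ≤ Γ) {k : ℤ} (f : ModularForm Γ k) :
    ModularForm Γ' k where
  toFun := f
  slash_action_eq' A hA := f.slash_action_eq' A (h hA)
  holo' := f.holo'
  bdd_at_cusps' hc := f.bdd_at_cusps' (hc.mono h)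

theorem p3_Gamma1_map_le {N M : ℕ} (h : N ∣ M) :
    (Gamma1 M : Subgroup (GL (Fin 2) ℝ)) ≤ (Gamma1 N : Subgroup (GL (Fin 2) ℝ)) :=
  Subgroup.map_mono (p3_Gamma1_le_of_dvd h)

/-- The product form. -/
def p3_prod (N ℓ : ℕ) (f : CuspForm (Gamma1 N) 1) (E : ModularForm (Gamma1 ℓ) 1) :
    CuspForm (Gamma1 (N * ℓ)) 2 :=
  CuspForm.mcast (by norm_num : (1 : ℤ) + 1 = 2)
    ((p3_restrictCusp (p3_Gamma1_map_le (Dvd.intro ℓ rfl)) f).mulModularForm
      (p3_restrictMod (p3_Gamma1_map_le (Dvd.intro_left N rfl)) E))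

theorem p3_prod_coe (N ℓ : ℕ) (f : CuspForm (Gamma1 N) 1) (E : ModularForm (Gamma1 ℓ) 1) :
    (p3_prod N ℓ f E : ℍ → ℂ) = (f : ℍ → ℂ) * (E : ℍ → ℂ) := rfl

theorem p3_one_mem_strictPeriods (N : ℕ) :
    (1 : ℝ) ∈ (Gamma1 N : Subgroup (GL (Fin 2) ℝ)).strictPeriods := by
  simp [CongruenceSubgroup.strictPeriods_Gamma1]

/-- **(P3')**. -/
theorem productFormStatement : ProductFormStatement := by
  intro N ℓ _ _ f E
  refine ⟨p3_prod N ℓ f E, fun z => rfl, fun n => ?_⟩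
  have hf : AnalyticAt ℂ (cuspFunction 1 (f : ℍ → ℂ)) 0 :=
    ModularFormClass.analyticAt_cuspFunction_zero f one_pos (p3_one_mem_strictPeriods N)
  have hE : AnalyticAt ℂ (cuspFunction 1 (E : ℍ → ℂ)) 0 :=
    ModularFormClass.analyticAt_cuspFunction_zero E one_pos (p3_one_mem_strictPeriods ℓ)
  unfold ModularFormClass.qCoeff
  rw [p3_prod_coe, qExpansion_mul hf hE, PowerSeries.coeff_mul,
    Finset.Nat.sum_antidiagonal_eq_sum_range_succ
      (fun i j => (PowerSeries.coeff i) (qExpansion 1 (f : ℍ → ℂ)) *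
        (PowerSeries.coeff j) (qExpansion 1 (E : ℍ → ℂ)))]

end Fermat.Agent.S48W
end
end MergeWrap_S48_W_P_Product
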